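import Fermat.Agent.GrunwaldWang.Cyclic
import Mathlib.GroupTheory.FiniteAbelian.Duality
import Mathlib.Analysis.SpecialFunctions.Complex.Circle

/-!
# Cyclic extensions with full local degrees

At a prime where none of `-1`, `2 + η`, `-(2 + η)` is a square a local character of order exactly `N`
can take either sign at the special element. So for every finite set of primes there is a cyclic
extension of degree `N` of full local degree there and ramified at the real places when `N` is even.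
-/

set_option autoImplicit false
set_option linter.style.haveILetI false

noncomputable section

open NumberField NumberField.InfinitePlace NumberField.InfinitePlace.Completion IsDedekindDomain
open WithZero IsMulCommutative
open FA.ArtinRec FA.Ideles FA.LocalCFT FA.GrunwaldWang FA.NormResidue
open FA.QuadFormsNF (valued_algebraMap)
open scoped Pointwise Classical

namespace FA.BrauerGlobal

variable {K : Type} [Field K] [NumberField K] (v : HeightOneSpectrum (𝓞 K))

private theorem div_rearrange {G : Type*} [CommGroup G] (a b x y : G) :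
    a / (x * y) * b * y = a * b / x :=
  Additive.ofMul.injective (by simp only [ofMul_mul, ofMul_div]; abel)

private theorem inv_mul_rearrange {G : Type*} [CommGroup G] (a b x z : G) :
    (a * b / x)⁻¹ * z = x / (b * (a / z)) :=
  Additive.ofMul.injective (by simp only [ofMul_mul, ofMul_div, ofMul_inv]; abel)

private theorem square_rearrange {G : Type*} [CommGroup G] (e p h d s : G) :
    (e * p)⁻¹ * (e * (p * h ^ 2) * s ^ 2) / (h * d) ^ 2 = ((d / s) ^ 2)⁻¹ :=
  Additive.ofMul.injective (by simp only [ofMul_mul, ofMul_div, ofMul_inv, ofMul_pow]; abel)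

private theorem root_rearrange {G : Type*} [CommGroup G] (c p z y : G) :
    c = (y ^ 2 * (c / (p * z ^ 2))) * p * (z * y⁻¹) ^ 2 :=
  Additive.ofMul.injective (by simp only [ofMul_mul, ofMul_div, ofMul_inv, ofMul_pow]; abel)

/-- The `n`-th powers of a completion have finite index. -/
theorem finite_powQuotient {n : ℕ} (hn : n ≠ 0) :
    Finite ((v.adicCompletion K)ˣ ⧸ (powMonoidHom n : (v.adicCompletion K)ˣ →* _).range) := by
  obtain ⟨k, hk⟩ := exists_nearLocal_pow v hn
  obtain ⟨π, hπ⟩ := exists_ord_eq_one v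
  haveI : NeZero n := ⟨hn⟩
  set U := nearUnits (K := K) v 0
  set B := (nearUnits (K := K) v (k + 1)).subgroupOf U
  haveI : Finite (U ⧸ B) :=
    Nat.finite_of_card_ne_zero (relIndex_nearUnits_ne_zero v (k + 1))
  refine Finite.of_surjective (fun qi : (U ⧸ B) × Fin n =>
    QuotientGroup.mk (localEmb v ((qi.1.out : Kˣ) * π ^ (qi.2 : ℕ)))) fun z => ?_
  obtain ⟨z, rfl⟩ := QuotientGroup.mk_surjective z
  obtain ⟨a, ha⟩ := exists_near v z k
  obtain ⟨q, i, hi⟩ : ∃ (q : ℤ) (i : Fin n), ord v a = n * q + (i : ℕ) := by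
    have hn' : (n : ℤ) ≠ 0 := Int.natCast_ne_zero.2 hn
    refine ⟨ord v a / n, ⟨(ord v a % n).toNat, ?_⟩, ?_⟩
    · have := Int.emod_lt_of_pos (ord v a) (Int.natCast_pos.2 (Nat.pos_of_ne_zero hn))
      omega
    · have := Int.emod_nonneg (ord v a) hn'
      have := Int.mul_ediv_add_emod (ord v a) n
      simp only []
      omega
  have hu : a / (π ^ (n * q) * π ^ (i : ℕ)) ∈ U := (mem_nearUnits_zero v).2 (by
    rw [ord_div, ord_mul, ord_zpow, ord_pow, hπ, hi]; ring)
  set u : U := ⟨_, hu⟩ with huu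
  refine ⟨(QuotientGroup.mk u, i), QuotientGroup.eq.2 ?_⟩
  obtain ⟨b, hb⟩ : ∃ b : Kˣ, b ∈ nearUnits v (k + 1) ∧
      (((QuotientGroup.mk u : U ⧸ B).out : U) : Kˣ) = (u : Kˣ) * b := by
    obtain ⟨b, hb⟩ := QuotientGroup.mk_out_eq_mul B u
    exact ⟨((b : U) : Kˣ), b.2, congrArg Subtype.val hb⟩
  have hnear : ∀ y ∈ nearLocal v k, y ∈ (powMonoidHom n : (v.adicCompletion K)ˣ →* _).range :=
    fun y hy => hk y hy
  have hbn : localEmb v b ∈ nearLocal v k := by
    rw [mem_nearLocal, localEmb_val, ← map_one (algebraMap K (v.adicCompletion K)), ← map_sub,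
      valued_algebraMap]
    exact hb.1.2
  set P := (powMonoidHom n : (v.adicCompletion K)ˣ →* _).range
  have hq : localEmb v (π ^ q) ^ n ∈ P := ⟨_, rfl⟩
  rw [hb.2, huu]
  have key : (localEmb v (a / (π ^ (n * q) * π ^ (i : ℕ)) * b * π ^ (i : ℕ)))⁻¹ * z =
      localEmb v (π ^ q) ^ n / (localEmb v b * (localEmb v a / z)) := by
    rw [div_rearrange, map_div, map_mul, inv_mul_rearrange, ← map_pow, ← zpow_natCast (π ^ q) n,
      ← zpow_mul, mul_comm q (n : ℤ)]
  rw [key]
  exact div_mem hq (mul_mem (hnear _ hbn) (hnear _ ha))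

theorem eq_one_or_neg_one_of_pow_two_pow {F : Type*} [Field F] (h : ¬ IsSquare (-1 : F)) {u : F}
    (r : ℕ) (hu : u ^ 2 ^ r = 1) : u = 1 ∨ u = -1 := by
  induction r generalizing u with
  | zero => exact Or.inl (by simpa using hu)
  | succ r ih =>
    rcases ih (u := u ^ 2) (by rw [← pow_mul, ← pow_succ']; exact hu) with h1 | h1
    · exact sq_eq_one_iff.1 h1
    · exact absurd ⟨u, by rw [← h1, sq]⟩ h

/-- The classes modulo squares outnumber those of `-1` and one further element. -/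
theorem exists_not_square_class (h2 : (2 : 𝓞 K) ∈ v.asIdeal) {b : Kˣ} :
    ∃ c : Kˣ, ∀ (s : (v.adicCompletion K)ˣ) (e : (v.adicCompletion K)ˣ) (j : ℕ),
      (e = 1 ∨ e = -1) → localEmb v c ≠ e * localEmb v b ^ j * s ^ 2 := by
  haveI : Fact (Nat.Prime 2) := ⟨Nat.prime_two⟩
  set k := 2 * pExp (K := K) v 2 + 1
  set P := powSub (K := K) v 2 k
  have hζ : IsPrimitiveRoot (((-1 : 𝓞 K)) : K) 2 := by
    simpa using IsPrimitiveRoot.neg_one (R := K) 0 (by norm_num)
  have hidx : 8 ≤ P.index := by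
    rw [index_powSub_deep v 2 hζ le_rfl]
    have he : pExp (K := K) v 2 ≠ 0 := fun h0 =>
      (ordI_eq_zero_iff v).1 h0 (Ideal.dvd_span_singleton.2 h2)
    have hq : 2 ≤ Ideal.absNorm v.asIdeal := by
      have h1 := Ideal.absNorm_eq_one_iff.not.2 v.isPrime.ne_top
      have h0 := Ideal.absNorm_eq_zero_iff.not.2 v.ne_bot
      omega
    calc 8 = 2 * (2 * 2 ^ 1) := by norm_num
      _ ≤ _ := Nat.mul_le_mul_left 2 (Nat.mul_le_mul_left 2 ((Nat.pow_le_pow_left hq 1).trans
        (Nat.pow_le_pow_right (Nat.le_trans one_le_two hq) (Nat.one_le_iff_ne_zero.2 he))))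
  haveI : P.FiniteIndex := ⟨by omega⟩
  let f : Fin 2 × Fin 2 → Kˣ ⧸ P := fun ej =>
    QuotientGroup.mk ((-1) ^ (ej.1 : ℕ) * b ^ (ej.2 : ℕ))
  obtain ⟨c, hc⟩ : ∃ c : Kˣ, ∀ ej, f ej ≠ QuotientGroup.mk c := by
    by_contra! h
    have h' := Nat.card_le_card_of_surjective f fun x => by
      obtain ⟨c, rfl⟩ := QuotientGroup.mk_surjective x
      exact h c
    rw [Nat.card_prod, Nat.card_fin, ← Subgroup.index] at h'
    omega
  refine ⟨c, fun s e j he heq => ?_⟩
  obtain ⟨d, hd⟩ := exists_near v s k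
  obtain ⟨i, hi⟩ : ∃ i : Fin 2, e = localEmb v ((-1) ^ (i : ℕ)) := by
    rcases he with rfl | rfl
    · exact ⟨0, by simp⟩
    · exact ⟨1, Units.ext (by rw [localEmb_val]; simp)⟩
  refine hc (i, ⟨j % 2, Nat.mod_lt _ two_pos⟩) (QuotientGroup.eq.2 ?_)
  set bj := (-1 : Kˣ) ^ (i : ℕ) * b ^ (j % 2)
  refine (mem_powSub v 2).2 ⟨bj⁻¹ * c / (b ^ (j / 2) * d) ^ 2, ?_, b ^ (j / 2) * d,
    div_mul_cancel _ _⟩
  have hmem : localEmb v (bj⁻¹ * c / (b ^ (j / 2) * d) ^ 2) ∈ nearLocal v k := by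
    have hb : localEmb v b ^ j =
        localEmb v b ^ (j % 2) * (localEmb v b ^ (j / 2)) ^ 2 := by
      rw [← pow_mul, ← pow_add, mul_comm (j / 2) 2, Nat.mod_add_div]
    have key : localEmb v (bj⁻¹ * c / (b ^ (j / 2) * d) ^ 2) = ((localEmb v d / s) ^ 2)⁻¹ := by
      simp only [bj, map_div, map_mul, map_inv, map_pow, heq, hi, hb]
      exact square_rearrange _ _ _ _ _
    rw [key]
    exact inv_mem (pow_mem hd 2)
  rw [localEmb_mem_nearLocal, FA.HasseCyclic.mem_nearOne] at hmem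
  exact mem_nearUnits_of_le v (by omega) (hmem.trans (exp_le_exp.2 (by push_cast; omega)))

/-- A character of exponent `n` separating an element from a subgroup containing the powers. -/
theorem exists_character_off {n : ℕ} (hn : n ≠ 0) {H : Subgroup (v.adicCompletion K)ˣ}
    (hH : (powMonoidHom n : (v.adicCompletion K)ˣ →* _).range ≤ H) {a : (v.adicCompletion K)ˣ}
    (ha : a ∉ H) :
    ∃ ψ : (v.adicCompletion K)ˣ →* ℂˣ, IsOpen (ψ.ker : Set (v.adicCompletion K)ˣ) ∧
      (∀ z, ψ z ^ n = 1) ∧ (∀ z ∈ H, ψ z = 1) ∧ ψ a ≠ 1 := by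
  haveI := finite_powQuotient v hn
  haveI : Finite ((v.adicCompletion K)ˣ ⧸ H) := Finite.of_surjective
    (QuotientGroup.map _ H (MonoidHom.id _) hH) fun x => by
      obtain ⟨y, rfl⟩ := QuotientGroup.mk_surjective x
      exact ⟨QuotientGroup.mk y, rfl⟩
  haveI : NeZero (Monoid.exponent ((v.adicCompletion K)ˣ ⧸ H)) := ⟨fun h => Nat.card_pos.ne'
    (Nat.eq_zero_of_zero_dvd (h ▸ Group.exponent_dvd_nat_card (G := (v.adicCompletion K)ˣ ⧸ H)))⟩
  obtain ⟨φ, hφ⟩ := CommGroup.exists_apply_ne_one_of_hasEnoughRootsOfUnity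
    ((v.adicCompletion K)ˣ ⧸ H) ℂ
    (a := QuotientGroup.mk a) fun h => ha ((QuotientGroup.eq_one_iff a).1 h)
  refine ⟨φ.comp (QuotientGroup.mk' H), ?_, fun z => ?_, fun z hz => ?_, hφ⟩
  · obtain ⟨k, hk⟩ := exists_nearLocal_pow v hn
    refine Subgroup.isOpen_mono (H₁ := nearLocal v k) (fun z hz => ?_)
      (show IsOpen (Units.val ⁻¹' {z : v.adicCompletion K |
        Valued.v (z - 1) ≤ exp (-((k + 1 : ℕ) : ℤ))}) from
        (isOpen_near v _).preimage Units.continuous_val)
    rw [MonoidHom.mem_ker, MonoidHom.comp_apply, QuotientGroup.mk'_apply,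
      (QuotientGroup.eq_one_iff z).2 (hH (hk z hz)), map_one]
  · rw [← map_pow, MonoidHom.comp_apply, QuotientGroup.mk'_apply,
      (QuotientGroup.eq_one_iff (z ^ n)).2 (hH ⟨z, rfl⟩), map_one]
  · rw [MonoidHom.comp_apply, QuotientGroup.mk'_apply, (QuotientGroup.eq_one_iff z).2 hz, map_one]

variable {v}

/-- **Both signs at the special element.** -/
theorem exists_local_character {n : ℕ} (hn : n ≠ 0) {η : K} (hη : IsSpecial n η)
    (hno : NoSquares (v.adicCompletion K) η) (A : Kˣ) (hA : (A : K) = wangElt n η) {ε : ℂˣ}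
    (hε : ε ^ 2 = 1) :
    ∃ χ : (v.adicCompletion K)ˣ →* ℂˣ, IsOpen (χ.ker : Set (v.adicCompletion K)ˣ) ∧
      (∀ z, χ z ^ n = 1) ∧ (∃ z, orderOf (χ z) = n) ∧ χ (localEmb v A) = ε := by
  obtain ⟨⟨s, hs, hsn⟩, -⟩ := hη
  obtain ⟨t', m, hm, hn2⟩ := Nat.exists_eq_two_pow_mul_odd hn
  obtain ⟨t, rfl⟩ : ∃ t, t' = t + 1 := ⟨t' - 1, by
    rcases Nat.eq_zero_or_pos t' with rfl | h
    · exfalso
      rw [hn2, pow_zero, one_mul] at hsn
      exact (Nat.not_even_iff_odd.2 hm)
        (even_iff_two_dvd.2 ((dvd_pow_self 2 (by omega : s + 1 ≠ 0)).trans hsn))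
    · omega⟩
  have hhalf : n / 2 = 2 ^ t * m := by
    rw [hn2, pow_succ, mul_comm (2 ^ t) 2, mul_assoc, Nat.mul_div_cancel_left _ two_pos]
  set k := v.adicCompletion K
  set b : Kˣ := Units.mk0 (2 + η) hs.two_add_ne_zero
  have hAb : localEmb v A = localEmb v b ^ (2 ^ t * m) := by
    rw [← map_pow]
    congr 1
    exact Units.ext (by rw [hA, wangElt, hhalf]; simp [b])
  set P := (powMonoidHom n : kˣ →* kˣ).range
  have hAP : localEmb v A ∉ P := by
    rintro ⟨c, hc⟩
    refine (exists_pow_eq_wangElt_iff (F := k) hn hs hsn).1 ⟨(c : k), ?_⟩ hno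
    rw [← Units.val_pow_eq_pow_val, ← powMonoidHom_apply n c, hc, localEmb_val, hA]
  have hAA : localEmb v A * localEmb v A ∈ P := ⟨localEmb v b, by
    rw [powMonoidHom_apply, hAb, ← pow_add, hn2, ← two_mul, ← mul_assoc, pow_succ']⟩
  -- a character with the right value and an element where its value has full `2`-part
  obtain ⟨ψ, hψo, hψn, hψA, w, hw⟩ : ∃ ψ : kˣ →* ℂˣ, IsOpen (ψ.ker : Set kˣ) ∧
      (∀ z, ψ z ^ n = 1) ∧ ψ (localEmb v A) = ε ∧ ∃ w, ψ w ^ (2 ^ t * m) = -1 := by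
    have hneg : ∀ x : ℂˣ, x ^ 2 = 1 → x ≠ 1 → x = -1 := fun x hx h1 => by
      rcases sq_eq_one_iff.1 (show (x : ℂ) ^ 2 = 1 by
        rw [← Units.val_pow_eq_pow_val, hx, Units.val_one]) with h | h
      · exact absurd (Units.ext h) h1
      · exact Units.ext h
    by_cases h1 : ε = 1
    · obtain ⟨c, hc⟩ := exists_not_square_class v
        (NoSquares.two_mem hs hno) (b := b)
      set C := localEmb v c ^ (2 ^ t * m)
      have hC : C ∉ P ⊔ Subgroup.zpowers (localEmb v A) := by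
        intro hmem
        obtain ⟨_, ⟨z, rfl⟩, _, ⟨j, rfl⟩, hz⟩ := Subgroup.mem_sup.1 hmem
        obtain ⟨j', z', hz'⟩ : ∃ (j' : ℕ) (z' : kˣ),
            C = (localEmb v b ^ j' * z' ^ 2) ^ (2 ^ t * m) := by
          obtain ⟨q, r, hr, hjq⟩ : ∃ (q : ℤ) (r : ℕ), r < 2 ∧ j = 2 * q + r :=
            ⟨j / 2, (j % 2).toNat, by omega, by omega⟩
          refine ⟨r, z * localEmb v b ^ q, ?_⟩
          rw [← hz, powMonoidHom_apply]
          change z ^ n * localEmb v A ^ j = _
          rw [hAb, hjq, hn2, mul_pow, ← pow_mul, ← pow_mul, mul_pow, ← zpow_natCast (_ ^ q),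
            ← zpow_mul, ← zpow_natCast (localEmb v b) (2 ^ t * m), ← zpow_mul,
            ← zpow_natCast (localEmb v b) (r * (2 ^ t * m))]
          rw [mul_left_comm, ← zpow_add, pow_succ', mul_assoc]
          congr 2
          push_cast
          ring
        set x := localEmb v c / (localEmb v b ^ j' * z' ^ 2) with hx
        have hx1 : x ^ (2 ^ t * m) = 1 := by rw [hx, div_pow, ← hz', div_self']
        have hu : ((x ^ m : kˣ) : k) ^ 2 ^ t = 1 := by
          rw [← Units.val_pow_eq_pow_val, ← pow_mul, mul_comm, hx1, Units.val_one]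
        obtain ⟨q, hq⟩ := hm
        have he : x ^ m = 1 ∨ x ^ m = -1 := by
          rcases eq_one_or_neg_one_of_pow_two_pow hno.1 t hu with h | h
          · exact Or.inl (Units.ext h)
          · exact Or.inr (Units.ext h)
        refine hc (z' * (x ^ q)⁻¹) (x ^ m) j' he ?_
        rw [hq, pow_succ, mul_comm 2 q, pow_mul]
        exact root_rearrange _ _ _ _
      obtain ⟨ψ, h2, h3, h4, h5⟩ := exists_character_off v hn le_sup_left hC
      refine ⟨ψ, h2, h3, by rw [h1, h4 _ (Subgroup.mem_sup_right (Subgroup.mem_zpowers _))],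
        localEmb v c, ?_⟩
      rw [← map_pow]
      refine hneg _ ?_ h5
      rw [← map_pow, ← pow_mul, show 2 ^ t * m * 2 = n by rw [hn2, pow_succ]; ring]
      rw [map_pow, h3]
    · obtain ⟨ψ, h2, h3, -, h5⟩ := exists_character_off v hn le_rfl hAP
      have hA1 : ψ (localEmb v A) = -1 := hneg _ (by
        obtain ⟨y, hy⟩ := hAA
        rw [sq, ← map_mul, ← hy, powMonoidHom_apply, map_pow, h3]) h5
      exact ⟨ψ, h2, h3, hA1.trans (hneg ε hε h1).symm, localEmb v b, by rw [← map_pow, ← hAb, hA1]⟩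
  haveI : NeZero n := ⟨hn⟩
  obtain ⟨ζ₀, hζ₀⟩ := HasEnoughRootsOfUnity.exists_primitiveRoot ℂ n
  set ζ := (hζ₀.isUnit hn).unit
  have hζ : IsPrimitiveRoot ζ n := IsPrimitiveRoot.coe_units_iff.1 (by simpa [ζ] using hζ₀)
  have hξm : (ζ ^ 2 ^ (t + 1)) ^ m = 1 := by rw [← pow_mul, ← hn2, hζ.pow_eq_one]
  set μ := unramChar v (ζ ^ 2 ^ (t + 1))
  have hμm : ∀ z, μ z ^ m = 1 := fun z => by
    rw [unramChar_apply, ← zpow_natCast, ← zpow_mul, mul_comm, zpow_mul, zpow_natCast, hξm,
      one_zpow]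
  let χ : kˣ →* ℂˣ := ψ ^ m * μ
  have hχ : ∀ z, χ z = ψ z ^ m * μ z := fun _ => rfl
  refine ⟨χ, ?_, fun z => ?_, ?_, ?_⟩
  · refine Subgroup.isOpen_mono (H₁ := ψ.ker ⊓ μ.ker) (fun z hz => ?_)
      (hψo.inter (isOpen_ker_unramChar _ _))
    rw [MonoidHom.mem_ker, hχ, MonoidHom.mem_ker.1 hz.1, MonoidHom.mem_ker.1 hz.2, one_pow, one_mul]
  · have h1 : μ z ^ n = 1 := by rw [hn2, mul_comm, pow_mul, hμm, one_pow]
    rw [hχ, mul_pow, ← pow_mul, mul_comm m, pow_mul, hψn, one_pow, one_mul, h1]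
  · refine ⟨w ^ m * localEmb v (unif v) ^ 2 ^ (t + 1), ?_⟩
    rw [map_mul, map_pow, map_pow]
    have h1 : χ w ^ m = ψ w ^ (m * m) := by
      rw [hχ, mul_pow, hμm, mul_one, pow_mul]
    have h2 : χ (localEmb v (unif v)) ^ 2 ^ (t + 1) = ((ζ ^ 2 ^ (t + 1)) ^ 2 ^ (t + 1))⁻¹ := by
      rw [hχ, mul_pow, ← pow_mul, mul_comm m, ← hn2, hψn, one_mul, unramChar_apply,
        valued_localEmb_unif, log_exp, zpow_neg_one, inv_pow]
    rw [h1, h2]
    have ho1 : orderOf (ψ w ^ (m * m)) = 2 ^ (t + 1) := by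
      haveI : Fact (Nat.Prime 2) := ⟨Nat.prime_two⟩
      refine orderOf_eq_prime_pow ?_ ?_
      · rw [← pow_mul, show m * m * 2 ^ t = 2 ^ t * m * m by ring, pow_mul, hw,
          hm.neg_one_pow]
        exact fun h => by
          have := congrArg Units.val h
          norm_num at this
      · rw [← pow_mul, show m * m * 2 ^ (t + 1) = n * m by rw [hn2]; ring, pow_mul, hψn, one_pow]
    have ho2 : orderOf ((ζ ^ 2 ^ (t + 1)) ^ 2 ^ (t + 1))⁻¹ = m := by
      have hξ : IsPrimitiveRoot (ζ ^ 2 ^ (t + 1)) m :=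
        hζ.pow (Nat.pos_of_ne_zero hn) hn2
      rw [orderOf_inv, ← (hξ.pow_of_coprime _ (Nat.Coprime.pow_left _
        (Nat.coprime_two_left.2 hm))).eq_orderOf]
    rw [Commute.orderOf_mul_eq_mul_orderOf_of_coprime (Commute.all _ _), ho1, ho2, ← hn2]
    rw [ho1, ho2]
    exact Nat.Coprime.pow_left _ (Nat.coprime_two_left.2 hm)
  · have h1 : μ (localEmb v A) = 1 := by rw [hAb, map_pow, mul_comm, pow_mul, hμm, one_pow]
    rw [hχ, h1, mul_one, hψA]
    obtain ⟨q, hq⟩ := hm
    rw [hq, pow_succ, pow_mul, hε, one_pow, one_mul]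

/-- The sign at a real place. -/
def signHom (w : InfinitePlace K) : w.Completionˣ →* ℂˣ :=
  if hr : IsReal w then MonoidHom.mk'
    (fun z => if 0 < extensionEmbeddingOfIsReal hr (z : w.Completion) then 1 else -1) fun z z' => by
      have h := extension_ne_zero hr z
      have h' := extension_ne_zero hr z'
      simp only [Units.val_mul, map_mul]
      rcases h.lt_or_gt with h | h <;> rcases h'.lt_or_gt with h' | h'
      · rw [if_pos (mul_pos_of_neg_of_neg h h'), if_neg h.not_gt, if_neg h'.not_gt,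
          neg_one_mul, neg_neg]
      · rw [if_neg (mul_neg_of_neg_of_pos h h').not_gt, if_neg h.not_gt, if_pos h', mul_one]
      · rw [if_neg (mul_neg_of_pos_of_neg h h').not_gt, if_pos h, if_neg h'.not_gt, one_mul]
      · rw [if_pos (mul_pos h h'), if_pos h, if_pos h', one_mul]
  else 1

theorem signHom_of_pos {w : InfinitePlace K} {z : w.Completionˣ}
    (h : ∀ hr : IsReal w, 0 < extensionEmbeddingOfIsReal hr (z : w.Completion)) :
    signHom w z = 1 := by
  unfold signHom
  split_ifs with hr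
  · show (if _ then (1 : ℂˣ) else -1) = 1
    rw [if_pos (h hr)]
  · rfl

theorem signHom_sq (w : InfinitePlace K) (z : w.Completionˣ) : signHom w z ^ 2 = 1 := by
  unfold signHom
  split_ifs with hr
  · show (if _ then (1 : ℂˣ) else -1) ^ 2 = 1
    split_ifs <;> simp
  · simp

theorem signHom_neg_one {w : InfinitePlace K} (hr : IsReal w) : signHom w (-1) = -1 := by
  unfold signHom
  rw [dif_pos hr]
  show (if _ then (1 : ℂˣ) else -1) = -1
  rw [if_neg]
  simp

/-- **A cyclic extension of full local degree at a finite set, ramified at the real places when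
the degree is even.** -/
theorem exists_cyclic_full (S : Finset (HeightOneSpectrum (𝓞 K))) {n : ℕ} (hn : n ≠ 0) :
    ∃ (L : Type) (_ : Field L) (_ : NumberField L) (_ : Algebra K L) (_ : IsGalois K L),
      IsCyclic (L ≃ₐ[K] L) ∧ Module.finrank K L = n ∧
      (∀ v ∈ S, ∀ Q : HeightOneSpectrum (𝓞 L), belowP K Q = v →
        Nat.card (MulAction.stabilizer (L ≃ₐ[K] L) Q.asIdeal) = n) ∧
      (Even n → ∀ w : InfinitePlace K, IsReal w → ¬ w.IsUnramifiedIn L) := by
  classical
  haveI : NeZero n := ⟨hn⟩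
  obtain ⟨ζ₀, hζ₀⟩ := HasEnoughRootsOfUnity.exists_primitiveRoot ℂ n
  set ζ := (hζ₀.isUnit hn).unit
  have hζ : IsPrimitiveRoot ζ n := IsPrimitiveRoot.coe_units_iff.1 (by simpa [ζ] using hζ₀)
  have hfull : ∀ v : HeightOneSpectrum (𝓞 K),
      IsOpen ((unramChar v ζ).ker : Set (v.adicCompletion K)ˣ) ∧
        (∀ z, unramChar v ζ z ^ n = 1) ∧ ∃ z, orderOf (unramChar v ζ z) = n := fun v =>
    ⟨isOpen_ker_unramChar _ _, fun z => by
      rw [unramChar_apply, ← zpow_natCast, ← zpow_mul, mul_comm, zpow_mul, zpow_natCast,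
        hζ.pow_eq_one, one_zpow], localEmb v (unif v), by
      rw [unramChar_apply, valued_localEmb_unif, log_exp, zpow_neg_one, orderOf_inv, hζ.eq_orderOf]⟩
  -- the primes above `2` and the local characters
  set S₂ := S ∪ ((Ideal.finite_factors (I := Ideal.span {(2 : 𝓞 K)}) (by simp)).subset
    fun Q (hQ : (2 : 𝓞 K) ∈ Q.asIdeal) => Ideal.dvd_span_singleton.2 hQ).toFinset
  obtain ⟨χ, hχ, hcond⟩ : ∃ χ : ∀ v : HeightOneSpectrum (𝓞 K), (v.adicCompletion K)ˣ →* ℂˣ,
      (∀ v : HeightOneSpectrum (𝓞 K), IsOpen (SetLike.coe (χ v).ker) ∧ (∀ z, χ v z ^ n = 1) ∧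
        ∃ z, orderOf (χ v z) = n) ∧
      ∀ η : K, IsSpecial n η →
        {v : HeightOneSpectrum (𝓞 K) | NoSquares (v.adicCompletion K) η} ⊆ S₂ →
          ∀ A : Kˣ, (A : K) = wangElt n η → ∏ v ∈ S₂, χ v (localEmb v A) = 1 := by
    by_cases hsp : ∃ η : K, IsSpecial n η
    swap
    · exact ⟨fun v => unramChar v ζ, hfull, fun η hη => absurd ⟨η, hη⟩ hsp⟩
    obtain ⟨η, hη⟩ := hsp
    have hA0 : wangElt n η ≠ 0 := by
      obtain ⟨⟨s, hs, -⟩, -⟩ := hη
      exact pow_ne_zero _ hs.two_add_ne_zero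
    set A := Units.mk0 _ hA0
    -- one special element stands for all
    have hall : ∀ (χ : ∀ v : HeightOneSpectrum (𝓞 K), (v.adicCompletion K)ˣ →* ℂˣ),
        (∀ v z, χ v z ^ n = 1) → ∏ v ∈ S₂, χ v (localEmb v A) = 1 →
          ∀ η' : K, IsSpecial n η' →
            {v : HeightOneSpectrum (𝓞 K) | NoSquares (v.adicCompletion K) η'} ⊆ S₂ →
              ∀ A' : Kˣ, (A' : K) = wangElt n η' → ∏ v ∈ S₂, χ v (localEmb v A') = 1 := by
      intro χ hχn hprod η' hη' hsub A' hA'
      have hx : ∀ v ∉ S₂, ∃ c : v.adicCompletion K, c ^ n =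
          algebraMap K (v.adicCompletion K) ((A' : K)) := fun v hv => by
        rw [hA']
        exact (exists_pow_completion_iff hn hη' v).2 fun h => hv (hsub h)
      rcases exists_pow_or_special_of_local (Nat.pos_of_ne_zero hn) S₂.finite_toSet hx with
        ⟨w, rfl⟩ | ⟨-, hall⟩
      · exact Finset.prod_eq_one fun v _ => by rw [map_pow, map_pow, hχn]
      obtain ⟨-, w, hw⟩ := hall η hη
      have hw0 : w ≠ 0 := fun h => A'.ne_zero (by rw [hw, h, zero_pow hn, mul_zero])
      rw [show A' = A * Units.mk0 w hw0 ^ n from Units.ext (by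
        rw [Units.val_mul, Units.val_pow_eq_pow_val, hw]; rfl)]
      simpa only [map_mul, map_pow, hχn, mul_one] using hprod
    by_cases hno : ∃ v₀ : HeightOneSpectrum (𝓞 K), NoSquares (v₀.adicCompletion K) η
    swap
    · refine ⟨fun v => unramChar v ζ, hfull, hall _ (fun v => (hfull v).2.1)
        (Finset.prod_eq_one fun v _ => ?_)⟩
      obtain ⟨c, hc⟩ := (exists_pow_completion_iff hn hη v).2 fun h => hno ⟨v, h⟩
      have hc0 : c ≠ 0 := fun h => hA0 (by
        rw [h, zero_pow hn, eq_comm, map_eq_zero] at hc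
        exact hc)
      rw [show localEmb v A = Units.mk0 c hc0 ^ n from Units.ext (by
        rw [localEmb_val, Units.val_pow_eq_pow_val]; exact hc.symm), map_pow,
        (hfull v).2.1]
    obtain ⟨v₀, hv₀⟩ := hno
    have hv₀S : v₀ ∈ S₂ := Finset.mem_union_right _ ((Set.Finite.mem_toFinset _).2 (by
      obtain ⟨⟨s, hs, -⟩, -⟩ := hη
      exact NoSquares.two_mem hs hv₀))
    set ε := (∏ v ∈ S₂.erase v₀, unramChar v ζ (localEmb v A))⁻¹ with hε
    have hε2 : ε ^ 2 = 1 := by
      rw [hε, inv_pow, ← Finset.prod_pow, inv_eq_one]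
      refine Finset.prod_eq_one fun v _ => ?_
      obtain ⟨⟨s, hs, hsn⟩, -⟩ := hη
      have h2 : n / 2 * 2 = n :=
        Nat.div_mul_cancel ((dvd_pow_self 2 (by omega : s + 1 ≠ 0)).trans hsn)
      rw [← map_pow, ← map_pow, show A ^ 2 = Units.mk0 (2 + η) hs.two_add_ne_zero ^ n from
        Units.ext (by simp [A, wangElt, ← pow_mul, h2]), map_pow, map_pow, (hfull v).2.1]
    obtain ⟨χ₀, h1, h2, h3, h4⟩ := exists_local_character hn hη hv₀ A rfl hε2
    set χ := Function.update (fun v => unramChar (K := K) v ζ) v₀ χ₀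
    have hχ : ∀ v, IsOpen ((χ v).ker : Set (v.adicCompletion K)ˣ) ∧ (∀ z, χ v z ^ n = 1) ∧
        ∃ z, orderOf (χ v z) = n := fun v => by
      rcases eq_or_ne v v₀ with rfl | h
      · rw [show χ v = χ₀ from Function.update_self _ _ _]
        exact ⟨h1, h2, h3⟩
      · rw [show χ v = unramChar v ζ from Function.update_of_ne h _ _]
        exact hfull v
    refine ⟨χ, hχ, hall χ (fun v => (hχ v).2.1) ?_⟩
    rw [← Finset.mul_prod_erase _ _ hv₀S, show χ v₀ = χ₀ from Function.update_self _ _ _, h4,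
      Finset.prod_congr rfl fun v hv => by
        rw [show χ v = unramChar v ζ from Function.update_of_ne (Finset.ne_of_mem_erase hv) _ _],
      hε, inv_mul_cancel]
  -- a prime of full order, if there is none already
  set ψ : ∀ w : InfinitePlace K, w.Completionˣ →* ℂˣ :=
    fun w => if Even n then signHom w else 1
  have hψn : ∀ w z, ψ w z ^ n = 1 := fun w z => by
    by_cases he : Even n
    · obtain ⟨j, hj⟩ := he
      simp only [ψ, if_pos (show Even n from ⟨j, hj⟩)]
      rw [hj, ← two_mul, pow_mul, signHom_sq, one_pow]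
    · simp [ψ, if_neg he]
  obtain ⟨u, huS⟩ : ∃ u : HeightOneSpectrum (𝓞 K), u ∉ S₂ := by
    obtain ⟨u, -, hu⟩ :=
      ((infinite_artinAt (K := K) (1 : K ≃ₐ[K] K)).sdiff S₂.finite_toSet).nonempty
    exact ⟨u, hu⟩
  set χ' := Function.update χ u (unramChar u ζ) with hχ'
  have hχ'eq : ∀ v ∈ S₂, χ' v = χ v := fun v hv =>
    Function.update_of_ne (by rintro rfl; exact huS hv) _ _
  have hχ'all : ∀ v, IsOpen ((χ' v).ker : Set (v.adicCompletion K)ˣ) ∧ (∀ z, χ' v z ^ n = 1) ∧
      ∃ z, orderOf (χ' v z) = n := fun v => by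
    rcases eq_or_ne v u with rfl | h
    · rw [show χ' v = unramChar v ζ from Function.update_self _ _ _]
      exact hfull v
    · rw [show χ' v = χ v from Function.update_of_ne h _ _]
      exact hχ v
  obtain ⟨Θ, hopen, hp, hΘn, hΘS, hΘw⟩ := exists_character (S := insert u S₂) (χ := χ') (ψ := ψ)
    (Nat.pos_of_ne_zero hn) (fun v _ => (hχ'all v).1) (fun v _ => (hχ'all v).2.1) hψn
    (fun w z h => by
      simp only [ψ]
      split_ifs
      · exact signHom_of_pos h
      · rfl)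
    fun η hη hsub A hA => by
      have hsub' : {v : HeightOneSpectrum (𝓞 K) | NoSquares (v.adicCompletion K) η} ⊆ S₂ :=
        fun v hv => Finset.mem_coe.2 (Finset.mem_union_right _ ((Set.Finite.mem_toFinset _).2 (by
          obtain ⟨⟨s, hs, -⟩, -⟩ := hη
          exact NoSquares.two_mem hs hv)))
      rw [Finset.prod_insert huS, Finset.prod_congr rfl fun v hv => by rw [hχ'eq v hv],
        hcond η hη hsub' A hA, mul_one, hχ', Function.update_self, unramChar_apply]
      have hord : Valued.v ((localEmb u A : (u.adicCompletion K)ˣ) : u.adicCompletion K) = 1 := by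
        obtain ⟨c, hc⟩ := (exists_pow_completion_iff hn hη u).2 fun h => huS (hsub' h)
        obtain ⟨⟨s, hs, -⟩, -⟩ := hη
        have h2 : (2 : 𝓞 K) ∉ u.asIdeal := fun h => huS
          (Finset.mem_union_right _ ((Set.Finite.mem_toFinset _).2 h))
        rw [localEmb_val, hA, wangElt, map_pow, map_pow, valued_algebraMap,
          valuation_two_add hs h2, one_pow]
      rw [hord, log_one, zpow_zero]
  obtain ⟨L, i1, i2, i3, i4, i5, hcyc, -, hL, hdeg⟩ :=
    exists_cyclic_of_character (Nat.pos_of_ne_zero hn) hopen hp hΘn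
  refine ⟨L, i1, i2, i3, i4, hcyc, ?_, fun v hv Q hQ => ?_, fun he w hr hun => ?_⟩
  · obtain ⟨z, hz⟩ := (hχ'all u).2.2
    exact hdeg ⟨single u z, by rw [hΘS u (Finset.mem_insert_self u S₂), hz]⟩
  · have hv' : v ∈ insert u S₂ := Finset.mem_insert_of_mem (Finset.mem_union_left _ hv)
    have hker : (localArtin L v).ker = (χ' v).ker := by
      ext z
      rw [MonoidHom.mem_ker, MonoidHom.mem_ker, ← hΘS v hv' z, ← artinIdele_single,
        ← MonoidHom.mem_ker, hL, MonoidHom.mem_ker]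
    rw [← range_localArtin hQ, ← Subgroup.index_ker, hker, Subgroup.index_ker]
    refine Nat.dvd_antisymm ?_ ?_
    · rw [← HasEnoughRootsOfUnity.natCard_rootsOfUnity ℂ n]
      refine Subgroup.card_dvd_of_le ?_
      rintro _ ⟨z, rfl⟩
      exact (mem_rootsOfUnity n _).2 ((hχ'all v).2.1 z)
    · obtain ⟨z, hz⟩ := (hχ'all v).2.2
      conv_lhs => rw [← hz]
      exact (Subgroup.orderOf_coe (⟨χ' v z, z, rfl⟩ : (χ' v).range)) ▸ orderOf_dvd_natCard _
  · have h1 : artinIdele L (infSingle w (-1)) = 1 := by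
      rw [artinIdele_apply, finprod_eq_one_of_forall_eq_one fun v => by
        rw [finComp_infSingle, map_one], one_mul]
      refine Finset.prod_eq_one fun w' _ => ?_
      rcases eq_or_ne w' w with rfl | hne
      · rw [infComp_infSingle_self]
        exact (localArtinInf_eq_one_iff _ _).2 fun hn' => absurd hun hn'
      · rw [infComp_infSingle_of_ne hne, map_one]
    rw [← MonoidHom.mem_ker, hL, MonoidHom.mem_ker, hΘw] at h1
    simp only [ψ, if_pos he, signHom_neg_one hr] at h1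
    exact absurd (congrArg Units.val h1) (by norm_num)

end FA.BrauerGlobal

end
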