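import Fermat.Agent.BrauerLocal.BaseChange
import Fermat.Agent.BrauerLocal.Exponent
import Fermat.Agent.LocalCFT.Abelian
import Mathlib.RingTheory.Invariant.Basic

/-!
# A class of a number field is trivial at almost every prime

Let a Galois extension `N` split the class. At an unramified prime the decomposition group is cyclic,
over its fixed field the class is cyclic, and such a class is trivial where its element is a unit.
-/

set_option autoImplicit false
set_option linter.style.haveILetI false

noncomputable section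

open NumberField IsDedekindDomain Module IntermediateField
open FA.ArtinRec FA.Ideles FA.LocalCFT FA.BrauerTheory FA.BrauerLocal
open FA.QuadFormsNF (valued_algebraMap charZero_completion)
open scoped TensorProduct Pointwise

namespace FA.BrauerGlobal

variable {K : Type} [Field K] [NumberField K] {N : Type} [Field N] [NumberField N] [Algebra K N]
  [IsGalois K N]

omit [IsGalois K N] in
/-- The decomposition group at an unramified prime is cyclic. -/
theorem isCyclic_stabilizer (Q : HeightOneSpectrum (𝓞 N)) (h : ¬ IsRam N (belowP K Q)) :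
    IsCyclic (MulAction.stabilizer (N ≃ₐ[K] N) Q.asIdeal) := by
  haveI : Q.asIdeal.LiesOver (belowP K Q).asIdeal := ⟨rfl⟩
  haveI := (belowP K Q).isMaximal
  haveI := Q.isMaximal
  haveI : Finite (𝓞 N ⧸ Q.asIdeal) := Ideal.finiteQuotientOfFreeOfNeBot _ Q.ne_bot
  letI : Field (𝓞 K ⧸ (belowP K Q).asIdeal) := Ideal.Quotient.field _
  letI : Field (𝓞 N ⧸ Q.asIdeal) := Ideal.Quotient.field _
  have hinj : Function.Injective
      (Ideal.Quotient.stabilizerHom Q.asIdeal (belowP K Q).asIdeal (N ≃ₐ[K] N)) := by
    refine (injective_iff_map_eq_one _).2 fun g hg => Subtype.ext ?_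
    have h1 : (g : N ≃ₐ[K] N) ∈ (Ideal.Quotient.stabilizerHom Q.asIdeal (belowP K Q).asIdeal
        (N ≃ₐ[K] N)).ker.map (Subgroup.subtype _) := ⟨g, hg, rfl⟩
    rw [Ideal.Quotient.map_ker_stabilizer_subtype] at h1
    have h2 : Q.asIdeal.inertia (N ≃ₐ[K] N) = ⊥ := by_contra fun hne => h ⟨Q, rfl, hne⟩
    rw [h2, Subgroup.mem_bot] at h1
    exact h1
  exact isCyclic_of_injective _ hinj

/-- **A cyclic class is trivial at an unramified prime where its element is a unit**, the prime
being inert. -/
theorem restriction_cyclicHom_of_unit (Q : HeightOneSpectrum (𝓞 N)) {σ : N ≃ₐ[K] N}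
    (hσ : ∀ g, g ∈ Subgroup.zpowers σ)
    (htop : MulAction.stabilizer (N ≃ₐ[K] N) Q.asIdeal = ⊤) (hunr : ¬ IsRam N (belowP K Q))
    (a : Kˣ) (ha : ord (belowP K Q) a = 0) :
    restriction ((belowP K Q).adicCompletion K) (cyclicHom hσ a) = 1 := by
  set D := MulAction.stabilizer (N ≃ₐ[K] N) Q.asIdeal
  set M := (belowP K Q).adicCompletion K
  set L' := Q.adicCompletion N
  haveI : IsCyclic (N ≃ₐ[K] N) := ⟨⟨σ, hσ⟩⟩
  haveI : IsMulCommutative (N ≃ₐ[K] N) := IsCyclic.isMulCommutative
  letI : Algebra K L' := ((algebraMap M L').comp (algebraMap K M)).toAlgebra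
  haveI : IsScalarTower K M L' := IsScalarTower.of_algebraMap_eq fun _ => rfl
  let i : N →ₐ[K] L' := { algebraMap N L' with
    commutes' := fun c => (belowHom_algebraMap Q c).symm }
  let φ : M ⊗[K] N →ₐ[M] L' :=
    Algebra.TensorProduct.lift (Algebra.ofId M L') i fun _ _ => Commute.all _ _
  have hi : ∀ x : N, i x ∈ φ.range := fun x => ⟨1 ⊗ₜ x, by simp [φ]⟩
  set e₀ := IsGaloisGroup.mulEquivAlgEquiv D M L'
  have hfix : ∀ g : L' ≃ₐ[M] L', (∀ x : N, g (i x) = i x) → g = 1 := fun g hg => by
    obtain ⟨d, rfl⟩ := e₀.surjective g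
    have hd : d = 1 := Subtype.ext (AlgEquiv.ext fun x => (algebraMap N L').injective
      ((decHom_algebraMap Q d x).symm.trans (hg x)))
    rw [hd, map_one]
  have hsurj : Function.Surjective φ := by
    let A : IntermediateField M L' := φ.range.toIntermediateField fun y hy =>
      φ.range.inv_mem_of_algebraic (x := ⟨y, hy⟩) (Algebra.IsAlgebraic.isAlgebraic y)
    have hA : A = ⊤ := by
      rw [← IsGalois.fixedField_fixingSubgroup A, show A.fixingSubgroup = ⊥ from
        (Subgroup.eq_bot_iff_forall _).2 fun g hg => hfix g fun x =>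
          (IntermediateField.mem_fixingSubgroup_iff _ _).1 hg _ (hi x),
        IntermediateField.fixedField_bot]
    intro y
    exact (AlgHom.mem_range φ).1 (show y ∈ A from hA ▸ IntermediateField.mem_top)
  have hdim : finrank M (M ⊗[K] N) = finrank M L' := by
    rw [Module.finrank_baseChange, finrank_above, ← IsGalois.card_aut_eq_finrank,
      ← Subgroup.card_top (G := N ≃ₐ[K] N), ← htop]
  let e : M ⊗[K] N ≃ₐ[M] L' := AlgEquiv.ofBijective φ
    ⟨(LinearMap.injective_iff_surjective_of_finrank_eq_finrank (f := φ.toLinearMap) hdim).2 hsurj,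
      hsurj⟩
  set d₀ : D := ⟨σ, htop ▸ Subgroup.mem_top σ⟩
  set σ' := e₀ d₀
  have hσ' : ∀ g, g ∈ Subgroup.zpowers σ' := fun g => by
    obtain ⟨d, rfl⟩ := e₀.surjective g
    obtain ⟨j, hj⟩ := Subgroup.mem_zpowers_iff.1 (hσ d)
    exact ⟨j, (map_zpow e₀ d₀ j).symm.trans (congrArg e₀ (Subtype.ext
      ((SubgroupClass.coe_zpow d₀ j).trans hj)))⟩
  haveI : IsCyclic (L' ≃ₐ[M] L') := ⟨⟨σ', hσ'⟩⟩
  rw [restriction_cyclicHom_baseChange hσ hσ' e (fun l => ?_) a]
  · refine (cyclicClass_eq_one_iff hσ' _).2 ?_
    have hker : Units.map (algebraMap K M).toMonoidHom a ∈ (normC (K := K) Q).range := by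
      rw [range_normC]
      refine localArtin_unit hunr ?_
      show Valued.v (algebraMap K M (a : K)) = 1
      rw [valued_algebraMap, valuation_eq_exp, ha, neg_zero, WithZero.exp_zero]
    obtain ⟨z, hz⟩ := hker
    exact ⟨z, congrArg Units.val hz⟩
  · have he : ∀ x : N, e ((1 : M) ⊗ₜ x) = i x := fun x => by simp [e, φ]
    rw [he, he]
    exact decHom_algebraMap Q d₀ l

/-- A completion with cyclic decomposition group is that of the decomposition field, where a
cyclic class gives it. -/
theorem exists_decomposition_step (Q : HeightOneSpectrum (𝓞 N))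
    (hcyc : IsCyclic (MulAction.stabilizer (N ≃ₐ[K] N) Q.asIdeal)) :
    ∃ (F : IntermediateField K N) (_ : IsCyclic (N ≃ₐ[F] N)),
      MulAction.stabilizer (N ≃ₐ[F] N) Q.asIdeal = ⊤ ∧
      ∀ x : BrauerGroup.{0, 0} K,
        restriction ((belowP F Q).adicCompletion F) (restriction F x) = 1 →
          restriction ((belowP K Q).adicCompletion K) x = 1 := by
  set D := MulAction.stabilizer (N ≃ₐ[K] N) Q.asIdeal with hD
  set F : IntermediateField K N := IntermediateField.fixedField D with hF
  have hmem : ∀ τ : N ≃ₐ[F] N, τ.restrictScalars K ∈ D := fun τ => by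
    rw [← IntermediateField.fixingSubgroup_fixedField D, ← hF,
      IntermediateField.mem_fixingSubgroup_iff]
    exact fun x hx => τ.commutes ⟨x, hx⟩
  let r : (N ≃ₐ[F] N) →* D :=
    { toFun := fun τ => ⟨τ.restrictScalars K, hmem τ⟩
      map_one' := rfl
      map_mul' := fun _ _ => rfl }
  haveI hcF : IsCyclic (N ≃ₐ[F] N) := isCyclic_of_injective r fun a b h =>
    AlgEquiv.restrictScalars_injective K (congrArg Subtype.val h)
  refine ⟨F, hcF, ?_, fun x hx => ?_⟩
  · exact eq_top_iff.2 fun τ _ => MulAction.mem_stabilizer_iff.2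
      (MulAction.mem_stabilizer_iff.1 (hmem τ))
  set EK := (belowP K Q).adicCompletion K
  set EF := (belowP F Q).adicCompletion F
  have hrange : ∀ z : EF, belowHom (K := F) Q z ∈ (belowHom (K := K) Q).range := fun z =>
    mem_range_of_fixed (K := K) Q fun d => decHom_belowHom_of_fixed Q F d
      (fun y => (IntermediateField.mem_fixedField_iff _ _).1 y.2 _ d.2) z
  let eK : EK ≃+* (belowHom (K := K) Q).range :=
    RingEquiv.ofBijective (belowHom (K := K) Q).rangeRestrict
      ⟨fun a b h => (belowHom (K := K) Q).injective (congrArg Subtype.val h),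
        (belowHom (K := K) Q).rangeRestrict_surjective⟩
  let g : EF →+* EK :=
    eK.symm.toRingHom.comp ((belowHom (K := F) Q).codRestrict _ hrange)
  have hg : ∀ z, belowHom (K := K) Q (g z) = belowHom (K := F) Q z := fun z =>
    congrArg Subtype.val (eK.apply_symm_apply ⟨_, hrange z⟩)
  letI : Algebra K EF := ((algebraMap F EF).comp (algebraMap K F)).toAlgebra
  haveI : IsScalarTower K F EF := IsScalarTower.of_algebraMap_eq fun _ => rfl
  refine restriction_eq_one_of_algHom (L := EF) { g with commutes' := fun c => ?_ }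
    ((restriction_restriction F EF x).symm.trans hx)
  refine (belowHom (K := K) Q).injective ((hg _).trans ?_)
  rw [belowHom_algebraMap]
  exact (belowHom_algebraMap (K := F) Q _)

/-- **Almost every prime is trivial.** -/
theorem finite_nontrivial (x : BrauerGroup.{0, 0} K) :
    {v : HeightOneSpectrum (𝓞 K) | restriction (v.adicCompletion K) x ≠ 1}.Finite := by
  obtain ⟨L₀, _, _, _, _, h₀⟩ := exists_separable_restriction_eq_one x
  obtain ⟨M, _, _, _, _, ⟨g⟩⟩ := exists_galois_closure K L₀
  haveI : NumberField M := NumberField.of_module_finite K M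
  have hM : restriction M x = 1 := restriction_eq_one_of_algHom g h₀
  have hclass : ∀ F : IntermediateField K M, ∃ a : Fˣ, IsCyclic (M ≃ₐ[F] M) →
      ∃ (σ : M ≃ₐ[F] M) (hσ : ∀ g, g ∈ Subgroup.zpowers σ),
        cyclicHom hσ a = restriction F x := fun F => by
    by_cases hF : IsCyclic (M ≃ₐ[F] M)
    · obtain ⟨σ, hσ⟩ := IsCyclic.exists_generator (α := M ≃ₐ[F] M)
      obtain ⟨a, ha⟩ : restriction F x ∈ (cyclicHom hσ).range := by
        rw [cyclicHom_range hσ, MonoidHom.mem_ker, restriction_restriction, hM]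
      exact ⟨a, fun _ => ⟨σ, hσ, ha⟩⟩
    · exact ⟨1, fun h => absurd h hF⟩
  choose a ha using hclass
  haveI : Finite (IntermediateField K M) :=
    Finite.of_injective _ (IsGalois.intermediateFieldEquivSubgroup (F := K) (E := M)).injective
  refine ((finite_isRam K M).union (Set.finite_iUnion fun F : IntermediateField K M =>
    (((finite_isRam F M).union (finite_ord_ne_zero (a F))).image (belowP K)))).subset fun v hv => ?_
  by_contra hnot
  simp only [Set.mem_union, Set.mem_iUnion, Set.mem_image, Set.mem_ofPred_eq, not_or,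
    not_exists, not_and] at hnot
  obtain ⟨hram, hbad⟩ := hnot
  obtain ⟨Q, rfl⟩ := exists_belowP K M v
  obtain ⟨F, hF, htop, hstep⟩ := exists_decomposition_step Q (isCyclic_stabilizer Q hram)
  refine hv (hstep x ?_)
  obtain ⟨σ, hσ, hσa⟩ := ha F hF
  rw [← hσa]
  have hb : belowP K (belowP F Q) = belowP K Q := HeightOneSpectrum.ext
    (Ideal.under_under (A := 𝓞 K) (B := 𝓞 F) Q.asIdeal)
  refine restriction_cyclicHom_of_unit Q hσ htop ?_ (a F) ?_
  · exact fun h => hbad F _ (Or.inl h) hb
  · exact by_contra fun h => hbad F _ (Or.inr h) hb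

end FA.BrauerGlobal

end
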