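import Fermat.Agent.BrauerGlobal.Characters
import Fermat.Agent.BrauerGlobal.Finite
import Fermat.Agent.BrauerLocal.Invariant
import Fermat.Agent.BrauerTheory.LocalGlobal
import Fermat.Agent.Root.SummarySkolemNoether

/-!
# Period equals index, and every algebra is cyclic

A cyclic extension of degree `N` with full local degree at the finitely many primes where the class is
not trivial, and without real places if `N` is even, kills every class killed by `N`.
-/

set_option autoImplicit false
set_option linter.style.haveILetI false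

noncomputable section

open NumberField IsDedekindDomain Module
open FA.ArtinRec FA.LocalCFT FA.BrauerTheory FA.BrauerLocal
open scoped TensorProduct Pointwise

namespace FA.BrauerGlobal

variable {K : Type} [Field K] [NumberField K]

/-- The Brauer group of `ℝ` is killed by `2`. -/
theorem sq_eq_one_real (y : BrauerGroup.{0, 0} ℝ) : y ^ 2 = 1 := by
  rw [← FA.Summary.brauerGroup_real]
  exact pow_card_eq_one'

/-- **A class killed by `N` is split by a cyclic extension of degree `N`.** -/
theorem exists_cyclic_restriction {x : BrauerGroup.{0, 0} K} {N : ℕ} (hN : N ≠ 0)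
    (hx : x ^ N = 1) :
    ∃ (L : Type) (_ : Field L) (_ : NumberField L) (_ : Algebra K L) (_ : IsGalois K L),
      IsCyclic (L ≃ₐ[K] L) ∧ finrank K L = N ∧ restriction L x = 1 := by
  obtain ⟨L, _, _, _, _, hcyc, hdeg, hloc, hreal⟩ :=
    exists_cyclic_full (finite_nontrivial x).toFinset hN
  refine ⟨L, inferInstance, inferInstance, inferInstance, inferInstance, hcyc, hdeg,
    eq_one_of_locallyTrivial ⟨fun w => ?_, fun φ => ?_⟩⟩
  · letI : Algebra K (w.adicCompletion L) :=
      ((algebraMap L (w.adicCompletion L)).comp (algebraMap K L)).toAlgebra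
    haveI : IsScalarTower K L (w.adicCompletion L) := IsScalarTower.of_algebraMap_eq fun _ => rfl
    set v := belowP K w
    set E := v.adicCompletion K
    set E' := w.adicCompletion L
    haveI : IsScalarTower K E E' :=
      IsScalarTower.of_algebraMap_eq fun c => (belowHom_algebraMap (K := K) w c).symm
    rw [restriction_restriction, ← restriction_restriction E E']
    by_cases hv : restriction E x = 1
    · rw [hv, map_one]
    haveI : IsCyclic (MulAction.stabilizer (L ≃ₐ[K] L) w.asIdeal) := Subgroup.isCyclic _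
    let e₀ := IsGaloisGroup.mulEquivAlgEquiv (MulAction.stabilizer (L ≃ₐ[K] L) w.asIdeal) E E'
    haveI : IsCyclic (E' ≃ₐ[E] E') := isCyclic_of_surjective e₀.toMonoidHom e₀.surjective
    refine (mem_ker_iff (n := N) E' ?_ _).2 (by rw [← map_pow, hx, map_one])
    rw [finrank_above, hloc v ((Set.Finite.mem_toFinset _).2 hv) w rfl]
  · letI : Algebra L ℝ := φ.toAlgebra
    letI : Algebra K ℝ := (φ.comp (algebraMap K L)).toAlgebra
    haveI : IsScalarTower K L ℝ := IsScalarTower.of_algebraMap_eq fun _ => rfl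
    rw [restriction_restriction]
    rcases Nat.even_or_odd N with he | ho
    · exfalso
      set u := InfinitePlace.mk (Complex.ofRealHom.comp φ)
      have hu : u.IsReal := InfinitePlace.isReal_mk_iff.2
        (NumberField.ComplexEmbedding.isReal_iff.2 (RingHom.ext fun c => Complex.conj_ofReal _))
      exact hreal he (u.comap (algebraMap K L)) (hu.comap _)
        (InfinitePlace.isUnramifiedIn_comap.2 (InfinitePlace.isUnramified_iff.2 (Or.inl hu)))
    · set y := restriction ℝ x
      have h1 : y ^ N = 1 := by rw [← map_pow, hx, map_one]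
      obtain ⟨j, rfl⟩ := ho
      rwa [pow_succ, pow_mul, sq_eq_one_real, one_pow, one_mul] at h1

variable {D : Type} [DivisionRing D] [Algebra K D] [FiniteDimensional K D] [Algebra.IsCentral K D]
  {d : ℕ}

/-- **Period equals index.** -/
theorem orderOf_eq_degree (hd : finrank K D = d ^ 2) :
    orderOf (mk ({ __ := AlgCat.of K D } : CSA.{0, 0} K)) = d := by
  set x := mk ({ __ := AlgCat.of K D } : CSA.{0, 0} K)
  have h1 : orderOf x ∣ d := orderOf_dvd_of_pow_eq_one (pow_degree_eq_one hd)
  have hd0 : d ≠ 0 := fun h => (Module.finrank_pos (R := K) (M := D)).ne'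
    (by rw [hd, h, zero_pow two_ne_zero])
  obtain ⟨L, _, _, _, _, _, hdeg, hL⟩ := exists_cyclic_restriction
    (fun h => hd0 (Nat.eq_zero_of_zero_dvd (h ▸ h1))) (pow_orderOf_eq_one x)
  obtain ⟨d', -, ⟨e⟩⟩ := (restriction_eq_one_iff L _).1 hL
  obtain ⟨hd', hdvd⟩ := dvd_finrank_of_split (D := D) e
  obtain rfl : d = d' := Nat.pow_left_injective two_ne_zero (hd.symm.trans hd')
  exact Nat.dvd_antisymm h1 (hdeg ▸ hdvd)

/-- A class is killed by the degree of every algebra in it. -/
theorem pow_eq_one_of_finrank {F : Type} [Field F] (A : CSA.{0, 0} F) {N : ℕ}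
    (hA : finrank F A = N ^ 2) : mk A ^ N = 1 := by
  obtain ⟨D, _, _, _, _, r, hr, ⟨g⟩⟩ := exists_algEquiv_matrix_division A
  have hD : mk A = mk ({ __ := AlgCat.of F D } : CSA.{0, 0} F) :=
    mk_eq_iff.2 (equivalent_of_algEquiv_matrix hr g)
  obtain ⟨L, _, _, _, _, hL⟩ := exists_separable_restriction_eq_one (mk A)
  rw [hD] at hL ⊢
  obtain ⟨d, -, ⟨e⟩⟩ := (restriction_eq_one_iff L _).1 hL
  obtain ⟨hd, -⟩ := dvd_finrank_of_split (D := D) e
  have hdim := g.toLinearEquiv.finrank_eq
  rw [Module.finrank_matrix, Fintype.card_fin, hA, hd, ← sq, ← mul_pow] at hdim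
  rw [Nat.pow_left_injective two_ne_zero hdim, mul_comm, pow_mul, pow_degree_eq_one hd, one_pow]

/-- **Every algebra of degree `N` is a cyclic algebra.** -/
theorem exists_presentation (A : CSA.{0, 0} K) {N : ℕ} (hA : finrank K A = N ^ 2) :
    ∃ (L : Type) (_ : Field L) (_ : NumberField L) (_ : Algebra K L) (_ : IsGalois K L),
      finrank K L = N ∧ ∃ (σ : L ≃ₐ[K] L) (a : K), (∀ g, g ∈ Subgroup.zpowers σ) ∧ a ≠ 0 ∧
        Nonempty (FA.CyclicAlgebra.Presentation σ a A) := by
  have hN : N ≠ 0 := fun h => (Module.finrank_pos (R := K) (M := (A : Type))).ne'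
    (by rw [hA, h, zero_pow two_ne_zero])
  obtain ⟨L, _, _, _, _, hcyc, hdeg, hL⟩ :=
    exists_cyclic_restriction hN (pow_eq_one_of_finrank A hA)
  obtain ⟨σ, hσ⟩ := IsCyclic.exists_generator (α := L ≃ₐ[K] L)
  obtain ⟨a, ha⟩ := exists_cyclicHom_eq hσ A hL
  obtain ⟨P, hP⟩ := (exists_cyclicCSA hσ a).choose_spec
  obtain ⟨e⟩ := nonempty_algEquiv_of_mk_eq ha (hP.trans (by rw [hA, hdeg]))
  exact ⟨L, inferInstance, inferInstance, inferInstance, inferInstance, hdeg, σ, a, hσ, a.ne_zero,
    ⟨P.map e⟩⟩

end FA.BrauerGlobal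

end
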